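/-
S16 (Eisenstein ideal index), LOWER half, package L5 = PARLIFT (helper8), part (A):
trace-`±2` elements of `Γ₀(p)` (`p` prime) are, up to sign, `Γ₀(p)`-conjugate to a power of
`T` or of `V = S⁻¹ T^p S`.  Hence a homomorphism `Γ₀(p) → A` killing `-1`, `T` and `V` is
parabolic.
-/
import Mathlib
import Fermat.Prelude.Def_ModularCurve_PeriodMap
import Fermat.Agent.S21.H86.Parabolic

set_option autoImplicit false

open CongruenceSubgroup ModularGroup ModularCurve.Period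
open scoped MatrixGroups

namespace Fermat.Agent.S16.H8

section Defs

variable (N : ℕ)

theorem T_mem_Gamma0 : (T : SL(2, ℤ)) ∈ Gamma0 N := by
  rw [Gamma0_mem]
  simp [ModularGroup.T]

/-- `T` as an element of `Γ₀(N)`. -/
def Tg : Gamma0 N := ⟨T, T_mem_Gamma0 N⟩

@[simp] theorem coe_Tg : ((Tg N : Gamma0 N) : SL(2, ℤ)) = T := rfl

theorem neg_one_mem_Gamma0 : (-1 : SL(2, ℤ)) ∈ Gamma0 N := by
  rw [Gamma0_mem]
  simp

/-- `-1` as an element of `Γ₀(N)`. -/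
def negOne : Gamma0 N := ⟨-1, neg_one_mem_Gamma0 N⟩

@[simp] theorem coe_negOne : ((negOne N : Gamma0 N) : SL(2, ℤ)) = -1 := rfl

theorem coe_conj_S_T_zpow (m : ℤ) :
    ((S⁻¹ * T ^ m * S : SL(2, ℤ)) : Matrix (Fin 2) (Fin 2) ℤ) = !![1, 0; -m, 1] := by
  rw [Matrix.SpecialLinearGroup.coe_mul, Matrix.SpecialLinearGroup.coe_mul, coe_T_zpow,
    Matrix.SpecialLinearGroup.coe_inv]
  ext i j
  fin_cases i <;> fin_cases j <;>
    simp [ModularGroup.S, Matrix.adjugate_fin_two, Matrix.mul_apply, Fin.sum_univ_two]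

theorem conj_S_T_zpow_mem_Gamma0_iff (m : ℤ) :
    S⁻¹ * T ^ m * S ∈ Gamma0 N ↔ (N : ℤ) ∣ m := by
  rw [Gamma0_mem, coe_conj_S_T_zpow]
  simp [ZMod.intCast_zmod_eq_zero_iff_dvd]

/-- `V = S⁻¹ T^N S = !![1, 0; -N, 1]` as an element of `Γ₀(N)`: a generator (up to sign) of the
stabiliser of the cusp `0`. -/
def Vg : Gamma0 N :=
  ⟨S⁻¹ * T ^ (N : ℤ) * S, (conj_S_T_zpow_mem_Gamma0_iff N _).mpr dvd_rfl⟩

@[simp] theorem coe_Vg : ((Vg N : Gamma0 N) : SL(2, ℤ)) = S⁻¹ * T ^ (N : ℤ) * S := rfl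

theorem coe_Vg_zpow (k : ℤ) :
    (((Vg N) ^ k : Gamma0 N) : SL(2, ℤ)) = S⁻¹ * T ^ ((N : ℤ) * k) * S := by
  rw [Subgroup.coe_zpow, coe_Vg, zpow_mul]
  have h := conj_zpow (a := (S⁻¹ : SL(2, ℤ))) (b := T ^ (N : ℤ)) (i := k)
  rw [inv_inv] at h
  exact h

end Defs

section Classification

variable (p : ℕ) [Fact p.Prime]

/-- A trace-`2` element of `Γ₀(p)` is `Γ₀(p)`-conjugate to a power of `T` or to a power of
`V = S⁻¹ T^p S`. -/
theorem exists_conj_Tg_or_Vg (γ : Gamma0 p)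
    (h : ((γ : SL(2, ℤ)) : Matrix (Fin 2) (Fin 2) ℤ).trace = 2) :
    (∃ (δ : Gamma0 p) (k : ℤ), γ = δ * Tg p ^ k * δ⁻¹) ∨
      (∃ (δ : Gamma0 p) (k : ℤ), γ = δ * Vg p ^ k * δ⁻¹) := by
  obtain ⟨g, m, hg⟩ := S21.H86.exists_conj_T_zpow_of_trace_eq_two (γ : SL(2, ℤ)) h
  have hγ : (γ : SL(2, ℤ)) = g * T ^ m * g⁻¹ := by
    rw [← hg]; group
  by_cases hc : g ∈ Gamma0 p
  · left
    refine ⟨⟨g, hc⟩, m, ?_⟩
    apply Subtype.ext
    rw [Subgroup.coe_mul, Subgroup.coe_mul, Subgroup.coe_inv, Subgroup.coe_zpow, coe_Tg]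
    exact hγ
  · right
    -- the lower-left entry of `g` is a unit mod `p`
    have hc' : ((g 1 0 : ℤ) : ZMod p) ≠ 0 := fun h0 => hc (Gamma0_mem.mpr h0)
    -- choose `j` with `d - j c ≡ 0`
    set j0 : ZMod p := ((g 1 1 : ℤ) : ZMod p) * ((g 1 0 : ℤ) : ZMod p)⁻¹ with hj0
    set j : ℤ := (j0.val : ℤ) with hj
    have hjc : ((j : ℤ) : ZMod p) = j0 := by
      rw [hj]; push_cast; exact ZMod.natCast_zmod_val j0
    set δ0 : SL(2, ℤ) := g * T ^ (-j) * S with hδ0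
    have hδ0_mem : δ0 ∈ Gamma0 p := by
      rw [Gamma0_mem]
      have hentry : (δ0 : Matrix (Fin 2) (Fin 2) ℤ) 1 0 = g 1 1 - j * g 1 0 := by
        rw [hδ0, Matrix.SpecialLinearGroup.coe_mul, Matrix.SpecialLinearGroup.coe_mul, coe_T_zpow]
        simp [ModularGroup.S, Matrix.mul_apply, Fin.sum_univ_two]
        ring
      rw [hentry]
      push_cast
      rw [hjc, hj0, mul_assoc, inv_mul_cancel₀ hc', mul_one, sub_self]
    -- `δ0⁻¹ γ δ0 = S⁻¹ T^m S`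
    have hconj : δ0⁻¹ * (γ : SL(2, ℤ)) * δ0 = S⁻¹ * T ^ m * S := by
      rw [hγ, hδ0]
      have : (g * T ^ (-j) * S)⁻¹ * (g * T ^ m * g⁻¹) * (g * T ^ (-j) * S)
          = S⁻¹ * (T ^ j * T ^ m * T ^ (-j)) * S := by
        rw [zpow_neg]; group
      rw [this]
      congr 2
      rw [← zpow_add, ← zpow_add]
      congr 1
      ring
    have hmem : S⁻¹ * T ^ m * S ∈ Gamma0 p := by
      rw [← hconj]
      exact (Gamma0 p).mul_mem ((Gamma0 p).mul_mem ((Gamma0 p).inv_mem hδ0_mem) γ.2) hδ0_mem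
    obtain ⟨k, hk⟩ := (conj_S_T_zpow_mem_Gamma0_iff p m).mp hmem
    refine ⟨⟨δ0, hδ0_mem⟩, k, ?_⟩
    apply Subtype.ext
    rw [Subgroup.coe_mul, Subgroup.coe_mul, Subgroup.coe_inv, coe_Vg_zpow, ← hk, ← hconj]
    show (γ : SL(2, ℤ)) = δ0 * (δ0⁻¹ * (γ : SL(2, ℤ)) * δ0) * δ0⁻¹
    group

end Classification

section Hom

variable (p : ℕ) [Fact p.Prime] {A : Type*} [AddCommGroup A]

omit [Fact p.Prime] in
theorem map_conj_zpow (ψ : Additive (Gamma0 p) →+ A) (δ x : Gamma0 p) (k : ℤ) :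
    ψ (Additive.ofMul (δ * x ^ k * δ⁻¹)) = k • ψ (Additive.ofMul x) := by
  rw [ofMul_mul, ofMul_mul, map_add, map_add, ofMul_inv, map_neg, ofMul_zpow, map_zsmul]
  abel

/-- A homomorphism on `Γ₀(p)` killing `T` and `V` kills all elements of trace `2`. -/
theorem map_eq_zero_of_trace_eq_two (ψ : Additive (Gamma0 p) →+ A)
    (hT : ψ (Additive.ofMul (Tg p)) = 0) (hV : ψ (Additive.ofMul (Vg p)) = 0) (γ : Gamma0 p)
    (h : ((γ : SL(2, ℤ)) : Matrix (Fin 2) (Fin 2) ℤ).trace = 2) :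
    ψ (Additive.ofMul γ) = 0 := by
  rcases exists_conj_Tg_or_Vg p γ h with ⟨δ, k, rfl⟩ | ⟨δ, k, rfl⟩
  · rw [map_conj_zpow, hT, smul_zero]
  · rw [map_conj_zpow, hV, smul_zero]

/-- A homomorphism on `Γ₀(p)` killing `-1`, `T` and `V = S⁻¹ T^p S` is parabolic. -/
theorem isParabolicHom_of_T_V (ψ : Additive (Gamma0 p) →+ A)
    (h1 : ψ (Additive.ofMul (negOne p)) = 0)
    (hT : ψ (Additive.ofMul (Tg p)) = 0) (hV : ψ (Additive.ofMul (Vg p)) = 0) :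
    IsParabolicHom (Gamma0 p) ψ := by
  intro γ hγ
  have h2 : ((γ : SL(2, ℤ)) : Matrix (Fin 2) (Fin 2) ℤ).trace = 2 ∨
      ((γ : SL(2, ℤ)) : Matrix (Fin 2) (Fin 2) ℤ).trace = -2 := by
    have : (((γ : SL(2, ℤ)) : Matrix (Fin 2) (Fin 2) ℤ).trace - 2) *
        (((γ : SL(2, ℤ)) : Matrix (Fin 2) (Fin 2) ℤ).trace + 2) = 0 := by
      linear_combination hγ
    rcases mul_eq_zero.mp this with h | h
    · left; linarith
    · right; linarith
  rcases h2 with h | h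
  · exact map_eq_zero_of_trace_eq_two p ψ hT hV γ h
  · -- `γ = (-1) * (-γ)`
    have hmem : -(γ : SL(2, ℤ)) ∈ Gamma0 p := by
      have : -(γ : SL(2, ℤ)) = (-1) * (γ : SL(2, ℤ)) := by simp
      rw [this]
      exact (Gamma0 p).mul_mem (neg_one_mem_Gamma0 p) γ.2
    have htr : (((⟨-(γ : SL(2, ℤ)), hmem⟩ : Gamma0 p) : SL(2, ℤ)) :
        Matrix (Fin 2) (Fin 2) ℤ).trace = 2 := by
      show ((-(γ : SL(2, ℤ)) : SL(2, ℤ)) : Matrix (Fin 2) (Fin 2) ℤ).trace = 2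
      rw [Matrix.SpecialLinearGroup.coe_neg, Matrix.trace_neg, h]; rfl
    have hγeq : γ = negOne p * ⟨-(γ : SL(2, ℤ)), hmem⟩ := by
      apply Subtype.ext
      rw [Subgroup.coe_mul, coe_negOne]
      simp
    rw [hγeq, ofMul_mul, map_add, h1, zero_add]
    exact map_eq_zero_of_trace_eq_two p ψ hT hV _ htr

theorem mem_parabolicHoms_of_T_V (R : Type*) [Semiring R] [Module R A]
    (ψ : Additive (Gamma0 p) →+ A)
    (h1 : ψ (Additive.ofMul (negOne p)) = 0)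
    (hT : ψ (Additive.ofMul (Tg p)) = 0) (hV : ψ (Additive.ofMul (Vg p)) = 0) :
    ψ ∈ parabolicHoms R (Gamma0 p) A :=
  mem_parabolicHoms_iff.mpr (isParabolicHom_of_T_V p ψ h1 hT hV)

omit [Fact p.Prime] in
/-- In a torsion-free target (e.g. `ℤ`) every homomorphism kills `-1`. -/
theorem map_negOne_int (ψ : Additive (Gamma0 p) →+ ℤ) : ψ (Additive.ofMul (negOne p)) = 0 := by
  have h : negOne p * negOne p = 1 := by
    apply Subtype.ext
    rw [Subgroup.coe_mul, coe_negOne]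
    simp
  have h2 : ψ (Additive.ofMul (negOne p)) + ψ (Additive.ofMul (negOne p)) = 0 := by
    rw [← map_add, ← ofMul_mul, h, ofMul_one, map_zero]
  omega

end Hom

end Fermat.Agent.S16.H8
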