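/-
S16 (Eisenstein ideal index), LOWER half, package L5 = PARLIFT (helper8), part (B):
for every homomorphism `ψ : Γ₀(p) → ℤ` one has `ψ T + ψ V = 0`, `V = S⁻¹ T^p S`
("the two cusps of `X₀(p)` have opposite residues").  Hence `ψ` is parabolic iff `ψ T = 0`.

Proof: `s(g) = Σ_x ψ (r_x⁻¹ g r_{g⁻¹ x})` (sum over `SL(2, ℤ) ⧸ Γ`) is a homomorphism
`SL(2, ℤ) → ℤ`, hence zero; for `g = T` the sum splits over the two `T`-orbits.
-/
import Mathlib
import Fermat.Agent.S21.H72.ParabolicBound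
import Fermat.Agent.S16.H8.Cusps

set_option autoImplicit false

open CongruenceSubgroup ModularGroup ModularCurve.Period
open scoped MatrixGroups

namespace Fermat.Agent.S16.H8

open Fermat.Agent.S21.H72 (rep mk_rep elt elt_mul)

section General

variable (Γ : Subgroup SL(2, ℤ)) {A : Type*} [AddCommGroup A]

theorem elt_one (x : SL(2, ℤ) ⧸ Γ) : elt Γ 1 x = 1 := by
  apply Subtype.ext
  simp [elt]

theorem map_elt_pow (ψ : Additive Γ →+ A) (g : SL(2, ℤ)) (n : ℕ) (x : SL(2, ℤ) ⧸ Γ) :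
    ψ (Additive.ofMul (elt Γ (g ^ n) x))
      = ∑ i ∈ Finset.range n, ψ (Additive.ofMul (elt Γ g ((g ^ i)⁻¹ • x))) := by
  induction n with
  | zero => simp [elt_one]
  | succ n ih =>
    rw [pow_succ, elt_mul, ofMul_mul, map_add, ih, Finset.sum_range_succ]

/-- The value of `ψ` on the induced cocycle at a fixed coset `r Γ` is `ψ (r⁻¹ g r)`. -/
theorem map_elt_of_fixed (ψ : Additive Γ →+ A) (g r : SL(2, ℤ))
    (hfix : g⁻¹ • (QuotientGroup.mk r : SL(2, ℤ) ⧸ Γ) = QuotientGroup.mk r)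
    (h : r⁻¹ * g * r ∈ Γ) :
    ψ (Additive.ofMul (elt Γ g (QuotientGroup.mk r)))
      = ψ (Additive.ofMul (⟨r⁻¹ * g * r, h⟩ : Γ)) := by
  have hδ : r⁻¹ * rep Γ (QuotientGroup.mk r) ∈ Γ := by
    rw [← QuotientGroup.eq, mk_rep]
  have key : elt Γ g (QuotientGroup.mk r)
      = (⟨r⁻¹ * rep Γ (QuotientGroup.mk r), hδ⟩ : Γ)⁻¹ * ⟨r⁻¹ * g * r, h⟩
        * ⟨r⁻¹ * rep Γ (QuotientGroup.mk r), hδ⟩ := by
    apply Subtype.ext
    simp only [elt, hfix, Subgroup.coe_mul, Subgroup.coe_inv]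
    group
  rw [key, ofMul_mul, ofMul_mul, map_add, map_add, ofMul_inv, map_neg]
  abel

variable [Fintype (SL(2, ℤ) ⧸ Γ)]

/-- `s(g) = Σ_x ψ (r_x⁻¹ g r_{g⁻¹ x})`. -/
noncomputable def eltSum (ψ : Additive Γ →+ A) (g : SL(2, ℤ)) : A :=
  ∑ x : SL(2, ℤ) ⧸ Γ, ψ (Additive.ofMul (elt Γ g x))

theorem eltSum_mul (ψ : Additive Γ →+ A) (g h : SL(2, ℤ)) :
    eltSum Γ ψ (g * h) = eltSum Γ ψ g + eltSum Γ ψ h := by
  unfold eltSum
  simp_rw [elt_mul, ofMul_mul, map_add]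
  rw [Finset.sum_add_distrib]
  congr 1
  exact Fintype.sum_equiv (MulAction.toPerm (g⁻¹ : SL(2, ℤ))) _ _ (fun x => rfl)

theorem eltSum_one (ψ : Additive Γ →+ A) : eltSum Γ ψ 1 = 0 := by
  have h := eltSum_mul Γ ψ 1 1
  rw [mul_one] at h
  exact left_eq_add.mp h

/-- `s` as a homomorphism `SL(2, ℤ) → A`. -/
noncomputable def eltSumHom (ψ : Additive Γ →+ A) : SL(2, ℤ) →* Multiplicative A where
  toFun g := Multiplicative.ofAdd (eltSum Γ ψ g)
  map_one' := by rw [eltSum_one]; rfl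
  map_mul' g h := by rw [eltSum_mul]; rfl

/-- Every homomorphism `SL(2, ℤ) → ℤ` is trivial. -/
theorem monoidHom_SL2Z_int_eq_one (f : SL(2, ℤ) →* Multiplicative ℤ) (g : SL(2, ℤ)) : f g = 1 := by
  have key : ∀ (x : SL(2, ℤ)) (n : ℕ), n ≠ 0 → x ^ n = 1 → f x = 1 := by
    intro x n hn hx
    have h1 : f x ^ n = 1 := by rw [← map_pow, hx, map_one]
    have h2 : n • Multiplicative.toAdd (f x) = 0 := by
      have := congrArg Multiplicative.toAdd h1
      simpa using this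
    have h3 : Multiplicative.toAdd (f x) = 0 := by
      rcases smul_eq_zero.mp h2 with h | h
      · exact absurd h hn
      · exact h
    exact Multiplicative.toAdd.injective h3
  have hS : f S = 1 := key S 4 (by norm_num) (by decide)
  have hST : f (S * T) = 1 := key (S * T) 6 (by norm_num) (by decide)
  have hT : f T = 1 := by
    have : T = S⁻¹ * (S * T) := by group
    rw [this, map_mul, map_inv, hS, hST]; simp
  have hle : Subgroup.closure ({S, T} : Set SL(2, ℤ)) ≤ f.ker := by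
    rw [Subgroup.closure_le]
    rintro x (rfl | rfl)
    · exact hS
    · exact hT
  rw [SpecialLinearGroup.SL2Z_generators] at hle
  exact hle (Subgroup.mem_top g)

theorem eltSum_eq_zero (ψ : Additive Γ →+ ℤ) (g : SL(2, ℤ)) : eltSum Γ ψ g = 0 := by
  have h := monoidHom_SL2Z_int_eq_one (eltSumHom Γ ψ) g
  exact Multiplicative.ofAdd.injective h

end General

section Gamma0

variable (p : ℕ) [Fact p.Prime]

/-- The coset of the cusp `∞`. -/
def xInf : SL(2, ℤ) ⧸ Gamma0 p := QuotientGroup.mk 1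

/-- The cosets `T^{-i} S Γ₀(p)` (the `T`-orbit of the cusp `0`). -/
def yPt (i : ℕ) : SL(2, ℤ) ⧸ Gamma0 p := QuotientGroup.mk ((T ^ i)⁻¹ * S)

omit [Fact p.Prime] in
theorem yPt_eq_smul (i : ℕ) :
    yPt p i = (T ^ i)⁻¹ • (QuotientGroup.mk S : SL(2, ℤ) ⧸ Gamma0 p) := rfl

theorem xInf_ne_yPt (i : ℕ) : xInf p ≠ yPt p i := by
  intro h
  rw [xInf, yPt, QuotientGroup.eq, inv_one, one_mul, Gamma0_mem] at h
  have hentry : (((T ^ i)⁻¹ * S : SL(2, ℤ)) : Matrix (Fin 2) (Fin 2) ℤ) 1 0 = 1 := by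
    rw [← zpow_natCast, ← zpow_neg, Matrix.SpecialLinearGroup.coe_mul, coe_T_zpow]
    simp [ModularGroup.S, Matrix.mul_apply, Fin.sum_univ_two]
  rw [hentry] at h
  have : Fact (1 < p) := ⟨(Fact.out : p.Prime).one_lt⟩
  simp at h

omit [Fact p.Prime] in
theorem yPt_eq_iff (i j : ℕ) : yPt p i = yPt p j ↔ (p : ℤ) ∣ (i : ℤ) - j := by
  rw [yPt, yPt, QuotientGroup.eq]
  have : ((T ^ i)⁻¹ * S)⁻¹ * ((T ^ j)⁻¹ * S) = S⁻¹ * T ^ ((i : ℤ) - j) * S := by
    rw [zpow_sub, zpow_natCast, zpow_natCast]; group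
  rw [this, conj_S_T_zpow_mem_Gamma0_iff]

theorem yPt_injOn {i j : ℕ} (hi : i < p) (hj : j < p) (h : yPt p i = yPt p j) : i = j := by
  rw [yPt_eq_iff] at h
  obtain ⟨k, hk⟩ := h
  have hp : (0 : ℤ) < p := by exact_mod_cast (Fact.out : p.Prime).pos
  have hi' : (i : ℤ) < p := by exact_mod_cast hi
  have hj' : (j : ℤ) < p := by exact_mod_cast hj
  have hk0 : k = 0 := by
    by_contra hne
    rcases lt_or_gt_of_ne hne with hlt | hgt
    · have : (p : ℤ) * k ≤ (p : ℤ) * (-1) := mul_le_mul_of_nonneg_left (by omega) hp.le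
      omega
    · have : (p : ℤ) * 1 ≤ (p : ℤ) * k := mul_le_mul_of_nonneg_left (by omega) hp.le
      omega
  rw [hk0, mul_zero] at hk
  omega

theorem mk_eq_xInf_or_yPt (g : SL(2, ℤ)) :
    (QuotientGroup.mk g : SL(2, ℤ) ⧸ Gamma0 p) = xInf p ∨ ∃ i : ℕ, i < p ∧
      (QuotientGroup.mk g : SL(2, ℤ) ⧸ Gamma0 p) = yPt p i := by
  by_cases hg : g ∈ Gamma0 p
  · left
    rw [xInf, eq_comm, QuotientGroup.eq, inv_one, one_mul]
    exact hg
  · right
    have hc' : ((g 1 0 : ℤ) : ZMod p) ≠ 0 := fun h0 => hg (Gamma0_mem.mpr h0)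
    set i0 : ZMod p := -((g 0 0 : ℤ) : ZMod p) * ((g 1 0 : ℤ) : ZMod p)⁻¹ with hi0
    refine ⟨i0.val, ZMod.val_lt i0, ?_⟩
    rw [eq_comm, yPt, QuotientGroup.eq, Gamma0_mem]
    have hrw : ((T ^ i0.val)⁻¹ * S)⁻¹ * g = S⁻¹ * T ^ (i0.val : ℤ) * g := by
      rw [zpow_natCast]; group
    have hentry : ((S⁻¹ * T ^ (i0.val : ℤ) * g : SL(2, ℤ)) : Matrix (Fin 2) (Fin 2) ℤ) 1 0
        = -(g 0 0 + (i0.val : ℤ) * g 1 0) := by
      rw [Matrix.SpecialLinearGroup.coe_mul, Matrix.SpecialLinearGroup.coe_mul, coe_T_zpow,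
        Matrix.SpecialLinearGroup.coe_inv]
      simp [ModularGroup.S, Matrix.adjugate_fin_two, Matrix.mul_apply, Fin.sum_univ_two]
      ring
    rw [hrw, hentry]
    push_cast
    rw [ZMod.natCast_zmod_val, hi0, mul_assoc, inv_mul_cancel₀ hc', mul_one]
    ring

/-- Summation over `SL(2, ℤ) ⧸ Γ₀(p)`: the point `∞` and the `T`-orbit of `0`. -/
theorem sum_cosets_eq {A : Type*} [AddCommMonoid A] [Fintype (SL(2, ℤ) ⧸ Gamma0 p)]
    (f : SL(2, ℤ) ⧸ Gamma0 p → A) :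
    ∑ x, f x = f (xInf p) + ∑ i ∈ Finset.range p, f (yPt p i) := by
  classical
  have huniv : (Finset.univ : Finset (SL(2, ℤ) ⧸ Gamma0 p))
      = insert (xInf p) ((Finset.range p).image (yPt p)) := by
    ext x
    simp only [Finset.mem_univ, Finset.mem_insert, Finset.mem_image, Finset.mem_range, true_iff]
    induction x using QuotientGroup.induction_on with
    | H g =>
      rcases mk_eq_xInf_or_yPt p g with h | ⟨i, hi, h⟩
      · exact Or.inl h
      · exact Or.inr ⟨i, hi, h.symm⟩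
  rw [huniv, Finset.sum_insert, Finset.sum_image]
  · intro i hi j hj h
    exact yPt_injOn p (Finset.mem_range.mp hi) (Finset.mem_range.mp hj) h
  · simp only [Finset.mem_image, Finset.mem_range, not_exists, not_and]
    intro i _ h
    exact xInf_ne_yPt p i h.symm

/-- **Residue relation**: every homomorphism `ψ : Γ₀(p) → ℤ` satisfies `ψ T + ψ V = 0`. -/
theorem map_Tg_add_map_Vg (ψ : Additive (Gamma0 p) →+ ℤ) :
    ψ (Additive.ofMul (Tg p)) + ψ (Additive.ofMul (Vg p)) = 0 := by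
  classical
  have : NeZero p := ⟨(Fact.out : p.Prime).ne_zero⟩
  let _ : Fintype (SL(2, ℤ) ⧸ Gamma0 p) := Fintype.ofFinite _
  have h0 := eltSum_eq_zero (Gamma0 p) ψ T
  rw [eltSum, sum_cosets_eq] at h0
  -- the fixed point `∞`
  have h1 : ψ (Additive.ofMul (elt (Gamma0 p) T (xInf p))) = ψ (Additive.ofMul (Tg p)) := by
    have hfix : (T : SL(2, ℤ))⁻¹ • (QuotientGroup.mk 1 : SL(2, ℤ) ⧸ Gamma0 p)
        = QuotientGroup.mk 1 := by
      rw [MulAction.Quotient.smul_mk, QuotientGroup.eq]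
      simp
    have hmem : (1 : SL(2, ℤ))⁻¹ * T * 1 ∈ Gamma0 p := by
      rw [inv_one, one_mul, mul_one]; exact T_mem_Gamma0 p
    rw [xInf, map_elt_of_fixed (Gamma0 p) ψ T 1 hfix hmem]
    congr 2
    apply Subtype.ext
    simp
  -- the orbit of `0`
  have h2 : ∑ i ∈ Finset.range p, ψ (Additive.ofMul (elt (Gamma0 p) T (yPt p i)))
      = ψ (Additive.ofMul (Vg p)) := by
    have hpow := map_elt_pow (Gamma0 p) ψ T p (QuotientGroup.mk S)
    have hsum : ∑ i ∈ Finset.range p, ψ (Additive.ofMul (elt (Gamma0 p) T (yPt p i)))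
        = ∑ i ∈ Finset.range p, ψ (Additive.ofMul (elt (Gamma0 p) T
            ((T ^ i)⁻¹ • (QuotientGroup.mk S : SL(2, ℤ) ⧸ Gamma0 p)))) := rfl
    rw [hsum, ← hpow]
    have hVmem : (S : SL(2, ℤ))⁻¹ * T ^ p * S ∈ Gamma0 p := by
      have := (conj_S_T_zpow_mem_Gamma0_iff p (p : ℤ)).mpr dvd_rfl
      rwa [zpow_natCast] at this
    have hfix : (T ^ p : SL(2, ℤ))⁻¹ • (QuotientGroup.mk S : SL(2, ℤ) ⧸ Gamma0 p)
        = QuotientGroup.mk S := by
      rw [MulAction.Quotient.smul_mk, QuotientGroup.eq, smul_eq_mul]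
      have : ((T ^ p : SL(2, ℤ))⁻¹ * S)⁻¹ * S = S⁻¹ * T ^ p * S := by group
      rw [this]; exact hVmem
    rw [map_elt_of_fixed (Gamma0 p) ψ (T ^ p) S hfix hVmem]
    congr 2
    apply Subtype.ext
    rw [coe_Vg, zpow_natCast]
  rw [h1, h2] at h0
  exact h0

/-- A homomorphism `ψ : Γ₀(p) → ℤ` is parabolic iff `ψ T = 0`. -/
theorem mem_parabolicHoms_iff_map_Tg (ψ : Additive (Gamma0 p) →+ ℤ) :
    ψ ∈ parabolicHoms ℤ (Gamma0 p) ℤ ↔ ψ (Additive.ofMul (Tg p)) = 0 := by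
  constructor
  · intro h
    refine (mem_parabolicHoms_iff.mp h) (Tg p) ?_
    rw [coe_Tg]
    simp [ModularGroup.T, Matrix.trace_fin_two]
  · intro hT
    have hV : ψ (Additive.ofMul (Vg p)) = 0 := by
      have := map_Tg_add_map_Vg p ψ
      omega
    exact mem_parabolicHoms_of_T_V p ℤ ψ (map_negOne_int p ψ) hT hV

end Gamma0

end Fermat.Agent.S16.H8
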