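/-
S16 (Eisenstein ideal index), LOWER half, package L5 = PARLIFT (helper8), part (D):
the PARABOLIC INTEGRAL LIFT of the Shimura class.  For `n = eisensteinNumerator p` there are a
surjective character `lam : (ℤ/p)ˣ → ℤ/n` and a parabolic homomorphism `ψ : Γ₀(p) → ℤ` with
`ψ γ ≡ lam (d_γ)  (mod n)`.

Inputs: helper97's landed presentation package (`H97.exists_int_lift`, `H97.exists_hom_T_eq_one`),
helper53's landed Shimura class (`H53.shimura`), and parts (A), (B) of this package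
(`mem_parabolicHoms_iff_map_Tg`: an integral homomorphism on `Γ₀(p)` is parabolic iff it kills `T`).
-/
import Mathlib
import Fermat.Agent.S16.H97.Lift
import Fermat.Agent.S16.H53.Shimura
import Fermat.Agent.S16.H8.CuspSum

set_option autoImplicit false

open CongruenceSubgroup ModularGroup ModularCurve ModularCurve.Period
open scoped MatrixGroups

namespace Fermat.Agent.S16.H8

variable (p : ℕ) [Fact p.Prime]

theorem S_not_mem_Gamma0 : (S : SL(2, ℤ)) ∉ Gamma0 p := by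
  have : Fact (1 < p) := ⟨(Fact.out : p.Prime).one_lt⟩
  rw [Gamma0_mem]
  simp [ModularGroup.S]

/-- For every character `lam` of `(ℤ/p)ˣ` killing the `12`-torsion, the Shimura class
`γ ↦ lam (d_γ)` has a PARABOLIC integral lift. -/
theorem exists_parabolic_lift_of_lam
    (lam : (ZMod p)ˣ →* Multiplicative (ZMod (eisensteinNumerator p)))
    (h12 : ∀ x, x ^ 12 = 1 → lam x = 1) :
    ∃ ψ : Additive (Gamma0 p) →+ ℤ, ψ ∈ parabolicHoms ℤ (Gamma0 p) ℤ ∧
      ∀ γ, ((ψ γ : ℤ) : ZMod (eisensteinNumerator p)) = H53.shimura p lam γ := by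
  obtain ⟨ψ0, hψ0⟩ := H97.exists_int_lift (Γ := Gamma0 p) (neg_one_mem_Gamma0 p)
    (eisensteinNumerator p) (H53.shimura p lam) (H53.shimura_neg_one h12)
    (H53.shimura_conj_S h12) (H53.shimura_conj_ST h12)
  obtain ⟨ψ1, hψ1⟩ := H97.exists_hom_T_eq_one (Γ := Gamma0 p) (neg_one_mem_Gamma0 p)
    (T_mem_Gamma0 p) (S_not_mem_Gamma0 p)
  have hψ1' : ψ1 (Additive.ofMul (Tg p)) = 1 := hψ1
  have htn : ((ψ0 (Additive.ofMul (Tg p)) : ℤ) : ZMod (eisensteinNumerator p)) = 0 := by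
    rw [hψ0]; exact H53.shimura_T
  refine ⟨ψ0 - ψ0 (Additive.ofMul (Tg p)) • ψ1, ?_, ?_⟩
  · rw [mem_parabolicHoms_iff_map_Tg]
    show ψ0 (Additive.ofMul (Tg p)) - ψ0 (Additive.ofMul (Tg p)) • ψ1 (Additive.ofMul (Tg p)) = 0
    rw [hψ1', smul_eq_mul, mul_one, sub_self]
  · intro γ
    show ((ψ0 γ - ψ0 (Additive.ofMul (Tg p)) • ψ1 γ : ℤ) : ZMod (eisensteinNumerator p)) = _
    rw [smul_eq_mul]
    push_cast
    rw [htn, zero_mul, sub_zero, hψ0]

theorem isCoprime_of_cast_eq_one (n : ℕ) (a : ℤ) (h : ((a : ℤ) : ZMod n) = 1) :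
    IsCoprime a (n : ℤ) := by
  have h1 : ((a - 1 : ℤ) : ZMod n) = 0 := by push_cast; rw [h, sub_self]
  obtain ⟨k, hk⟩ := (ZMod.intCast_zmod_eq_zero_iff_dvd _ _).mp h1
  exact ⟨1, -k, by linear_combination hk⟩

/-- **PARLIFT** (final export of L5): a surjective character `lam : (ℤ/p)ˣ → ℤ/n`,
`n = eisensteinNumerator p`, and a parabolic `ψ : Γ₀(p) → ℤ` lifting the Shimura class
`γ ↦ lam (d_γ)`; moreover `ψ γ₀` is coprime to `n` for some `γ₀`. -/
theorem exists_parabolic_lift :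
    ∃ (lam : (ZMod p)ˣ →* Multiplicative (ZMod (eisensteinNumerator p)))
      (ψ : Additive (Gamma0 p) →+ ℤ),
      Function.Surjective lam ∧ (∀ x, x ^ 12 = 1 → lam x = 1) ∧
      ψ ∈ parabolicHoms ℤ (Gamma0 p) ℤ ∧
      (∀ γ, ((ψ γ : ℤ) : ZMod (eisensteinNumerator p)) = H53.shimura p lam γ) ∧
      ∃ γ₀ : Gamma0 p, IsCoprime (ψ (Additive.ofMul γ₀)) (eisensteinNumerator p : ℤ) := by
  have : NeZero p := ⟨(Fact.out : p.Prime).ne_zero⟩
  obtain ⟨lam, hsurj, h12⟩ := H53.exists_lam p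
  obtain ⟨ψ, hpar, hψ⟩ := exists_parabolic_lift_of_lam p lam h12
  obtain ⟨γ₀, hγ₀⟩ := H53.shimura_surjective hsurj 1
  refine ⟨lam, ψ, hsurj, h12, hpar, hψ, γ₀, ?_⟩
  exact isCoprime_of_cast_eq_one _ _ (by rw [hψ]; exact hγ₀)

/-- Pointwise form of the congruence: `ψ γ ≡ lam (d_γ)`. -/
theorem exists_parabolic_lift' :
    ∃ (lam : (ZMod p)ˣ →* Multiplicative (ZMod (eisensteinNumerator p)))
      (ψ : Additive (Gamma0 p) →+ ℤ),
      Function.Surjective lam ∧ ψ ∈ parabolicHoms ℤ (Gamma0 p) ℤ ∧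
      ∀ γ : Gamma0 p, ((ψ (Additive.ofMul γ) : ℤ) : ZMod (eisensteinNumerator p))
        = Multiplicative.toAdd (lam (H53.dUnit p γ)) := by
  obtain ⟨lam, ψ, hsurj, -, hpar, hψ, -⟩ := exists_parabolic_lift p
  exact ⟨lam, ψ, hsurj, hpar, fun γ => hψ (Additive.ofMul γ)⟩

end Fermat.Agent.S16.H8
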